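/-
P-CFT / TATE-SPLIT (row 483, helper56): the splitting module of a 2-cocycle.

For a `G`-module `C` and a 2-cocycle `φ`, the splitting module `D = C × I_G` with the twisted
action `g (c, ξ) = (g c + ∑_h ξ(h) φ(g, h), g ξ)`, together with the two short exact sequences
`0 → C → D → I_G → 0` and `0 → I_G → ℤ[G] → ℤ → 0`.
-/
import Fermat.Agent.H24.Tate.Interfaces

set_option autoImplicit false

noncomputable section

open CategoryTheory

namespace Fermat.Agent.H56.Tate

attribute [-instance] AddCommGroup.toIntModule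

universe u

/-- Short exactness in `Rep k G` can be checked on underlying functions. -/
theorem shortExact_of_functions {k G : Type u} [CommRing k] [Group G]
    (S : ShortComplex (Rep.{u} k G))
    (hinj : Function.Injective S.f.hom) (hsurj : Function.Surjective S.g.hom)
    (hex : ∀ x : S.X₂, S.g.hom x = 0 → ∃ y : S.X₁, S.f.hom y = x) : S.ShortExact := by
  have hex' : S.Exact := by
    rw [← ShortComplex.exact_map_iff_of_faithful S (forget₂ (Rep k G) (ModuleCat k))]
    rw [ShortComplex.moduleCat_exact_iff]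
    intro x hx
    exact hex x hx
  exact
    { exact := hex'
      mono_f := (Rep.mono_iff_injective S.f).2 hinj
      epi_g := (Rep.epi_iff_surjective S.g).2 hsurj }

/-- Module scalar multiplication by an integer is `zsmul`, for any module instance. -/
lemma modSmul_eq_zsmul {M : Type*} [AddCommGroup M] [h : Module ℤ M] (n : ℤ) (x : M) :
    @HSMul.hSMul ℤ M M (@instHSMul ℤ M h.toSMul) n x = n • x := int_smul_eq_zsmul h n x

variable {G : Type} [Group G]

/-- The augmentation `ℤ[G] ⟶ ℤ`. -/
def augHom (G : Type) [Group G] : Rep.leftRegular ℤ G ⟶ Rep.trivial ℤ G ℤ :=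
  Rep.leftRegularHom (Rep.trivial ℤ G ℤ) (1 : ℤ)

lemma augHom_single (g : G) (r : ℤ) :
    (augHom G).hom (MonoidAlgebra.single g r) = r := by
  simp [augHom]

/-- The augmentation ideal as a submodule. -/
def augIdeal (G : Type) [Group G] : Submodule ℤ (MonoidAlgebra ℤ G) :=
  LinearMap.ker (augHom G).hom.toLinearMap

lemma mem_augIdeal (ξ : MonoidAlgebra ℤ G) : ξ ∈ augIdeal G ↔ (augHom G).hom ξ = 0 := Iff.rfl

lemma augIdeal_le_comap (g : G) :
    augIdeal G ≤ (augIdeal G).comap ((Rep.leftRegular ℤ G).ρ g) := by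
  intro ξ hξ
  rw [Submodule.mem_comap, mem_augIdeal, Rep.hom_comm_apply]
  rw [mem_augIdeal] at hξ
  rw [hξ]
  simp

/-- The representation of `G` on the augmentation ideal. -/
abbrev augRho (G : Type) [Group G] : Representation ℤ G (augIdeal G) :=
  (Rep.leftRegular ℤ G).ρ.subrepresentation (augIdeal G) augIdeal_le_comap

/-- The augmentation ideal as a representation. -/
abbrev augRep (G : Type) [Group G] : Rep ℤ G :=
  Rep.subrepresentation (Rep.leftRegular ℤ G) (augIdeal G) augIdeal_le_comap

/-- The inclusion `I_G ⟶ ℤ[G]`. -/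
def augIncl (G : Type) [Group G] : augRep G ⟶ Rep.leftRegular ℤ G :=
  Rep.subtype (Rep.leftRegular ℤ G) (augIdeal G) augIdeal_le_comap

lemma augIncl_apply (ξ : augIdeal G) : (augIncl G).hom ξ = (ξ : MonoidAlgebra ℤ G) := rfl

lemma augIncl_comp_augHom : augIncl G ≫ augHom G = 0 := by
  ext ξ
  exact ξ.2

lemma coe_augRho (g : G) (ξ : augIdeal G) :
    ((augRho G g ξ : augIdeal G) : MonoidAlgebra ℤ G) =
      (Rep.leftRegular ℤ G).ρ g (ξ : MonoidAlgebra ℤ G) := rfl

section Twist

variable (C : Rep ℤ G) (φ : groupCohomology.cocycles₂ C)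

/-- `ξ ↦ ∑_h ξ(h) φ(g, h)`. -/
def twist (g : G) : MonoidAlgebra ℤ G →ₗ[ℤ] C.V :=
  (Finsupp.lift C.V ℤ G (fun h => φ (g, h))) ∘ₗ (MonoidAlgebra.coeffLinearEquiv ℤ).toLinearMap

lemma twist_single (g h : G) (r : ℤ) :
    twist C φ g (MonoidAlgebra.single h r) = r • φ (g, h) := by
  simp [twist, modSmul_eq_zsmul]

lemma twist_mul (g g' : G) (ξ : MonoidAlgebra ℤ G) :
    twist C φ (g * g') ξ + (augHom G).hom ξ • φ (g, g') =
      C.ρ g (twist C φ g' ξ) + twist C φ g ((Rep.leftRegular ℤ G).ρ g' ξ) := by
  induction ξ using MonoidAlgebra.induction_linear with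
  | zero => simp
  | add x y hx hy =>
    simp only [map_add, add_zsmul]
    rw [add_add_add_comm, hx, hy, add_add_add_comm]
  | single h r =>
    rw [twist_single, augHom_single, twist_single, Representation.ofMulAction_single,
      twist_single, map_zsmul, ← zsmul_add, ← zsmul_add]
    rw [(groupCohomology.mem_cocycles₂_iff φ).1 φ.2 g g' h]
    rfl

lemma twist_one (ξ : MonoidAlgebra ℤ G) :
    twist C φ 1 ξ = (augHom G).hom ξ • φ (1, 1) := by
  induction ξ using MonoidAlgebra.induction_linear with
  | zero => simp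
  | add x y hx hy => simp only [map_add, add_zsmul, hx, hy]
  | single h r =>
    rw [twist_single, augHom_single, groupCohomology.cocycles₂_map_one_fst]

lemma twist_one_of_mem (ξ : MonoidAlgebra ℤ G) (hξ : ξ ∈ augIdeal G) : twist C φ 1 ξ = 0 := by
  rw [twist_one, (mem_augIdeal ξ).1 hξ, zero_zsmul]

lemma twist_mul_of_mem (g g' : G) (ξ : MonoidAlgebra ℤ G) (hξ : ξ ∈ augIdeal G) :
    twist C φ (g * g') ξ =
      C.ρ g (twist C φ g' ξ) + twist C φ g ((Rep.leftRegular ℤ G).ρ g' ξ) := by
  rw [← twist_mul, (mem_augIdeal ξ).1 hξ, zero_zsmul, add_zero]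

/-- The action of `g` on the splitting module `C × I_G`. -/
def splitAct (g : G) : (C.V × augIdeal G) →ₗ[ℤ] (C.V × augIdeal G) :=
  LinearMap.coprod (LinearMap.inl ℤ C.V (augIdeal G) ∘ₗ C.ρ g)
    (LinearMap.prod (twist C φ g ∘ₗ (augIdeal G).subtype) (augRho G g))

lemma splitAct_apply (g : G) (x : C.V × augIdeal G) :
    splitAct C φ g x = (C.ρ g x.1 + twist C φ g (x.2 : MonoidAlgebra ℤ G), augRho G g x.2) := by
  simp [splitAct]

/-- The representation on the splitting module. -/
def splitRho : Representation ℤ G (C.V × augIdeal G) where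
  toFun g := splitAct C φ g
  map_one' := by
    apply LinearMap.ext
    intro x
    rw [splitAct_apply, twist_one_of_mem C φ _ x.2.2]
    ext
    · simp
    · simp
  map_mul' g g' := by
    apply LinearMap.ext
    intro x
    rw [Module.End.mul_apply, splitAct_apply, splitAct_apply, splitAct_apply]
    ext
    · simp only [coe_augRho]
      rw [twist_mul_of_mem C φ g g' _ x.2.2]
      simp only [map_mul, Module.End.mul_apply, map_add]
      abel
    · simp

lemma splitRho_apply (g : G) (x : C.V × augIdeal G) :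
    splitRho C φ g x = (C.ρ g x.1 + twist C φ g (x.2 : MonoidAlgebra ℤ G), augRho G g x.2) :=
  splitAct_apply C φ g x

/-- The splitting module. -/
abbrev splitRep : Rep ℤ G := Rep.of (splitRho C φ)

/-- The inclusion `C ⟶ D`. -/
def splitIncl : C ⟶ splitRep C φ :=
  Rep.ofHom ⟨LinearMap.inl ℤ C.V (augIdeal G), fun g => by
    apply LinearMap.ext
    intro c
    change ((C.ρ g c, 0) : C.V × augIdeal G) = splitRho C φ g (c, 0)
    rw [splitRho_apply]
    simp⟩

/-- The projection `D ⟶ I_G`. -/
def splitProj : splitRep C φ ⟶ augRep G :=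
  Rep.ofHom ⟨LinearMap.snd ℤ C.V (augIdeal G), fun g => by
    apply LinearMap.ext
    intro x
    change (splitRho C φ g x).2 = augRho G g x.2
    rw [splitRho_apply]⟩

lemma splitIncl_apply (c : C.V) : (splitIncl C φ).hom c = (c, 0) := rfl

lemma splitProj_apply (x : C.V × augIdeal G) : (splitProj C φ).hom x = x.2 := rfl

lemma splitIncl_comp_splitProj : splitIncl C φ ≫ splitProj C φ = 0 := by
  ext c
  rfl

/-- The short complex `C ⟶ D ⟶ I_G`. -/
abbrev splitSeq : ShortComplex (Rep ℤ G) :=
  ShortComplex.mk (splitIncl C φ) (splitProj C φ) (splitIncl_comp_splitProj C φ)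

lemma splitSeq_shortExact : (splitSeq C φ).ShortExact := by
  apply shortExact_of_functions
  · intro c c' h
    exact congrArg Prod.fst h
  · intro ξ
    exact ⟨((0 : C.V), ξ), rfl⟩
  · intro x hx
    refine ⟨x.1, ?_⟩
    change (x.1, (0 : augIdeal G)) = x
    have : x.2 = 0 := hx
    rw [← this]

end Twist

/-- The short complex `I_G ⟶ ℤ[G] ⟶ ℤ`. -/
abbrev augSeq (G : Type) [Group G] : ShortComplex (Rep ℤ G) :=
  ShortComplex.mk (augIncl G) (augHom G) augIncl_comp_augHom

lemma augSeq_shortExact : (augSeq G).ShortExact := by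
  apply shortExact_of_functions
  · intro x y h
    exact Subtype.ext h
  · intro n
    exact ⟨MonoidAlgebra.single 1 n, augHom_single 1 n⟩
  · intro x hx
    exact ⟨⟨x, hx⟩, rfl⟩

end Fermat.Agent.H56.Tate
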