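/-
P-CFT / TATE-SPLIT (row 483, helper56): cohomology of the splitting module.

For a class module `(C, u)` and a cocycle `φ` representing `u`, the connecting homomorphism
`δ : H¹(S, I_G) → H²(S, C)` of `0 → C → D → I_G → 0` sends the class of `s ↦ s - 1` to `res u`,
and `H¹(S, D) = H²(S, D) = 0`.
-/
import Fermat.Agent.H56.Tate.SplitModule

set_option autoImplicit false

noncomputable section

open CategoryTheory groupCohomology

namespace Fermat.Agent.H56.Tate

attribute [-instance] AddCommGroup.toIntModule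

/-- Tate cohomology vs group cohomology in positive degrees. -/
lemma isZero_groupCohomology_iff_tate {H : Type} [Group H] [Fintype H] (M : Rep ℤ H) (n : ℕ)
    [NeZero n] :
    Limits.IsZero (groupCohomology M n) ↔ Limits.IsZero (tateCohomology M n) :=
  ⟨fun h => h.of_iso ((TateCohomology.isoGroupCohomology n).app M),
    fun h => h.of_iso ((TateCohomology.isoGroupCohomology n).app M).symm⟩

section General

variable {H : Type} [Group H] (A : Rep ℤ H)

lemma H1π_zsmul (n : ℤ) (x : cocycles₁ A) : H1π A (n • x) = n • H1π A x :=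
  map_zsmul (H1π A).hom n x

/-- `H¹` of a finite group is killed by the order of the group. -/
lemma card_zsmul_H1π [Fintype H] (x : cocycles₁ A) : (Fintype.card H : ℤ) • H1π A x = 0 := by
  rw [← H1π_zsmul, H1π_eq_zero_iff]
  refine ⟨-∑ t : H, x t, ?_⟩
  funext s
  have hx : ∀ t : H, x (s * t) = A.ρ s (x t) + x s := fun t =>
    (mem_cocycles₁_iff x).1 x.2 s t
  have h1 : ∑ t : H, x (s * t) = ∑ t : H, x t :=
    Fintype.sum_equiv (Equiv.mulLeft s) _ _ (fun t => rfl)
  have h2 : ∑ t : H, x (s * t) = A.ρ s (∑ t : H, x t) + (Fintype.card H : ℤ) • x s := by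
    simp only [hx, Finset.sum_add_distrib, map_sum, Finset.sum_const, Finset.card_univ]
    rw [natCast_zsmul]
  rw [h1] at h2
  change A.ρ s (-∑ t : H, x t) - (-∑ t : H, x t) = ((Fintype.card H : ℤ) • x : cocycles₁ A) s
  have h3 : ((Fintype.card H : ℤ) • x : cocycles₁ A) s = (Fintype.card H : ℤ) • x s := rfl
  rw [h3, map_neg]
  have h4 : (Fintype.card H : ℤ) • x s = ∑ t : H, x t - A.ρ s (∑ t : H, x t) := by
    rw [eq_sub_iff_add_eq, add_comm]
    exact h2.symm
  rw [h4]
  abel

/-- `H¹(H, A) = 0` for a finite group and a torsion-free trivial representation. -/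
lemma subsingleton_H1_of_isTrivial [Finite H] (A : Rep ℤ H) [A.IsTrivial]
    (htf : ∀ (n : ℕ) (a : A.V), 0 < n → n • a = 0 → a = 0) :
    Subsingleton (groupCohomology A 1) := by
  refine ⟨fun a b => ?_⟩
  have key : ∀ w : H1 A, w = 0 := by
    intro w
    induction w using H1_induction_on with
    | h x =>
      have hx0 : x = 0 := by
        apply cocycles₁_ext
        intro s
        have hpow : ∀ n : ℕ, x (s ^ n) = n • x s := by
          intro n
          induction n with
          | zero => simp
          | succ n ih =>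
            rw [pow_succ, cocycles₁_map_mul_of_isTrivial, ih, succ_nsmul]
        have h1 := hpow (orderOf s)
        rw [pow_orderOf_eq_one, cocycles₁_map_one] at h1
        exact htf _ _ (orderOf_pos s) h1.symm
      rw [hx0, map_zero]
  rw [key a, key b]

end General

variable {G : Type} [Group G]

section Restricted

variable (S : Subgroup G)

/-- The restriction of `0 → I_G → ℤ[G] → ℤ → 0` to a subgroup. -/
abbrev augSeqRes : ShortComplex (Rep ℤ S) := (augSeq G).map (Rep.resFunctor S.subtype)

lemma augSeqRes_shortExact : (augSeqRes S).ShortExact :=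
  (Rep.shortExact_res S.subtype).2 augSeq_shortExact

instance isTrivial_res_trivial : (Rep.res S.subtype (Rep.trivial ℤ G ℤ)).IsTrivial :=
  ⟨fun _ => rfl⟩

lemma subsingleton_H2_augRep_res
    (h1 : Subsingleton (groupCohomology (Rep.res S.subtype (Rep.trivial ℤ G ℤ)) 1))
    (h2 : Limits.IsZero (groupCohomology (Rep.res S.subtype (Rep.leftRegular ℤ G)) 2)) :
    Subsingleton (groupCohomology (Rep.res S.subtype (augRep G)) 2) := by
  have hex := mapShortComplex₁_exact (augSeqRes_shortExact S) (i := 1) (j := 2) rfl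
  rw [ShortComplex.moduleCat_exact_iff] at hex
  refine ⟨fun a b => ?_⟩
  have key : ∀ w : groupCohomology (Rep.res S.subtype (augRep G)) 2, w = 0 := by
    intro w
    have hX3 : Subsingleton (mapShortComplex₁ (augSeqRes_shortExact S) (i := 1) (j := 2) rfl).X₃ :=
      ModuleCat.subsingleton_of_isZero h2
    have hX1 : Subsingleton (mapShortComplex₁ (augSeqRes_shortExact S) (i := 1) (j := 2) rfl).X₁ :=
      h1
    obtain ⟨v, hv⟩ := hex w (Subsingleton.elim _ _)
    rw [← hv, Subsingleton.elim v 0]
    exact map_zero _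
  rw [key a, key b]

/-- The cocycle `s ↦ s - 1` with values in `I_G`. -/
def augCocycleFun (s : S) : augIdeal G :=
  ⟨MonoidAlgebra.single (s : G) 1 - MonoidAlgebra.single 1 1, by
    rw [mem_augIdeal, map_sub, augHom_single, augHom_single, sub_self]⟩

lemma augCocycleFun_mem : (augCocycleFun S : S → augIdeal G) ∈
    cocycles₁ (Rep.res S.subtype (augRep G)) := by
  rw [mem_cocycles₁_iff]
  intro s t
  apply Subtype.ext
  simp [augCocycleFun]

/-- The cocycle `s ↦ s - 1` with values in `I_G`. -/
def augCocycle : cocycles₁ (Rep.res S.subtype (augRep G)) :=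
  ⟨augCocycleFun S, augCocycleFun_mem S⟩

lemma coe_augCocycle_apply (s : S) :
    ((augCocycle S s : augIdeal G) : MonoidAlgebra ℤ G) =
      MonoidAlgebra.single (s : G) 1 - MonoidAlgebra.single 1 1 := rfl

/-- The class of `s ↦ s - 1` in `H¹(S, I_G)`. -/
def augClass : groupCohomology (Rep.res S.subtype (augRep G)) 1 :=
  H1π _ (augCocycle S)

lemma zsmul_single_one (g : G) (n : ℤ) :
    n • (MonoidAlgebra.single g 1 : MonoidAlgebra ℤ G) = MonoidAlgebra.single g n := by
  rw [← modSmul_eq_zsmul, MonoidAlgebra.smul_single, smul_eq_mul, mul_one]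

/-- `H¹(S, I_G)` is generated by the class of `s ↦ s - 1`. -/
lemma exists_zsmul_augClass
    (h1 : Limits.IsZero (groupCohomology (Rep.res S.subtype (Rep.leftRegular ℤ G)) 1))
    (w : groupCohomology (Rep.res S.subtype (augRep G)) 1) : ∃ n : ℤ, w = n • augClass S := by
  induction w using H1_induction_on with
  | h x =>
    have hx : ∀ s t : S, x (s * t) = (Rep.res S.subtype (augRep G)).ρ s (x t) + x s :=
      (mem_cocycles₁_iff x).1 x.2
    have hx'mem : (fun s : S => ((x s : augIdeal G) : MonoidAlgebra ℤ G)) ∈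
        cocycles₁ (Rep.res S.subtype (Rep.leftRegular ℤ G)) := by
      rw [mem_cocycles₁_iff]
      intro s t
      exact congrArg Subtype.val (hx s t)
    have hsub : Subsingleton (groupCohomology (Rep.res S.subtype (Rep.leftRegular ℤ G)) 1) :=
      ModuleCat.subsingleton_of_isZero h1
    have hzero : H1π (Rep.res S.subtype (Rep.leftRegular ℤ G)) ⟨_, hx'mem⟩ = 0 :=
      Subsingleton.elim _ _
    rw [H1π_eq_zero_iff] at hzero
    obtain ⟨y, hy⟩ := hzero
    have hy' : ∀ s : S, (Rep.leftRegular ℤ G).ρ (s : G) y - y = ((x s : augIdeal G) :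
        MonoidAlgebra ℤ G) := fun s => congrFun hy s
    refine ⟨(augHom G).hom y, ?_⟩
    unfold augClass
    rw [← H1π_zsmul, H1π_eq_iff]
    have hamem : y - MonoidAlgebra.single 1 ((augHom G).hom y) ∈ augIdeal G := by
      rw [mem_augIdeal, map_sub, augHom_single, sub_self]
    refine ⟨⟨_, hamem⟩, ?_⟩
    funext s
    apply Subtype.ext
    change (Rep.leftRegular ℤ G).ρ (s : G) (y - MonoidAlgebra.single 1 ((augHom G).hom y)) -
        (y - MonoidAlgebra.single 1 ((augHom G).hom y)) =
      ((x s : augIdeal G) : MonoidAlgebra ℤ G) -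
        ((augHom G).hom y) • (MonoidAlgebra.single (s : G) 1 - MonoidAlgebra.single 1 1)
    rw [← hy' s, map_sub, Representation.ofMulAction_single, zsmul_sub, zsmul_single_one,
      zsmul_single_one, smul_eq_mul, mul_one]
    abel

variable (C : Rep ℤ G) (φ : groupCohomology.cocycles₂ C)

/-- The restriction of `0 → C → D → I_G → 0` to a subgroup. -/
abbrev splitSeqRes : ShortComplex (Rep ℤ S) := (splitSeq C φ).map (Rep.resFunctor S.subtype)

lemma splitSeqRes_shortExact : (splitSeqRes S C φ).ShortExact :=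
  (Rep.shortExact_res S.subtype).2 (splitSeq_shortExact C φ)

/-- The 2-cochain `(s, t) ↦ φ(s, t) - φ(s, 1)`. -/
def deltaCochain (p : S × S) : C.V := φ ((p.1 : G), (p.2 : G)) - φ ((p.1 : G), 1)

lemma twist_augCocycle (g : G) (t : S) :
    twist C φ g ((augCocycleFun S t : augIdeal G) : MonoidAlgebra ℤ G) =
      φ (g, (t : G)) - φ (g, 1) := by
  change twist C φ g (MonoidAlgebra.single (t : G) 1 - MonoidAlgebra.single 1 1) = _
  rw [map_sub, twist_single, twist_single, one_zsmul, one_zsmul]

lemma deltaCochain_spec :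
    (splitSeqRes S C φ).f.hom ∘ (deltaCochain S C φ) =
      d₁₂ (splitSeqRes S C φ).X₂
        (fun s : S => (((0 : C.V), augCocycleFun S s) : C.V × augIdeal G)) := by
  funext p
  obtain ⟨s, t⟩ := p
  change ((deltaCochain S C φ (s, t), 0) : C.V × augIdeal G) =
    splitRho C φ (s : G) ((0 : C.V), augCocycleFun S t) - ((0 : C.V), augCocycleFun S (s * t)) +
      ((0 : C.V), augCocycleFun S s)
  rw [splitRho_apply]
  ext
  · simp [deltaCochain, twist_augCocycle]
  · simp [augCocycleFun]

lemma delta_augClass :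
    δ (splitSeqRes_shortExact S C φ) 1 2 rfl (augClass S) =
      H2π (Rep.res S.subtype C) ⟨deltaCochain S C φ,
        mem_cocycles₂_of_comp_eq_d₁₂ (splitSeqRes_shortExact S C φ) (deltaCochain_spec S C φ)⟩ :=
  δ₁_apply (splitSeqRes_shortExact S C φ) (augCocycle S)
    (fun s : S => (((0 : C.V), augCocycleFun S s) : C.V × augIdeal G)) rfl
    (deltaCochain S C φ) (deltaCochain_spec S C φ)

/-- The restriction of the class of `φ` to `S`. -/
lemma res_H2π_eq :
    groupCohomology.map S.subtype (𝟙 (Rep.res S.subtype C)) 2 (H2π C φ) =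
      H2π (Rep.res S.subtype C) ⟨deltaCochain S C φ,
        mem_cocycles₂_of_comp_eq_d₁₂ (splitSeqRes_shortExact S C φ) (deltaCochain_spec S C φ)⟩ := by
  rw [H2π_comp_map_apply, H2π_eq_iff]
  refine ⟨fun _ => φ (1, 1), ?_⟩
  funext p
  obtain ⟨s, t⟩ := p
  change C.ρ (s : G) (φ (1, 1)) - φ (1, 1) + φ (1, 1) =
    φ ((s : G), (t : G)) - (φ ((s : G), (t : G)) - φ ((s : G), 1))
  rw [cocycles₂_map_one_snd φ (s : G)]
  abel

/-- The connecting homomorphism sends the class of `s ↦ s - 1` to the restriction of `[φ]`. -/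
lemma delta_augClass_eq :
    δ (splitSeqRes_shortExact S C φ) 1 2 rfl (augClass S) =
      groupCohomology.map S.subtype (𝟙 (Rep.res S.subtype C)) 2 (H2π C φ) := by
  rw [delta_augClass, res_H2π_eq]

end Restricted

end Fermat.Agent.H56.Tate
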