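/-
P-CFT / TATE-SPLIT (row 483, helper56): the splitting module of a fundamental class.

`theorem splitting (hreg : LeftRegularTrivialStatement) : SplittingStatement`.
-/
import Fermat.Agent.H56.Tate.SplitCohomology

set_option autoImplicit false

noncomputable section

open CategoryTheory groupCohomology

namespace Fermat.Agent.H56.Tate

attribute [-instance] AddCommGroup.toIntModule

open Fermat.Agent.H24

variable {G : Type} [Group G]

section Vanishing

variable (S : Subgroup G) [Fintype S] (C : Rep ℤ G) (φ : groupCohomology.cocycles₂ C)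

/-- Injectivity of the connecting homomorphism `H¹(S, I_G) → H²(S, C)`. -/
lemma delta_injective
    (h1 : Limits.IsZero (groupCohomology (Rep.res S.subtype (Rep.leftRegular ℤ G)) 1))
    (hcard : Nat.card (groupCohomology (Rep.res S.subtype C) 2) = Nat.card S)
    (hgen : ∀ y : groupCohomology (Rep.res S.subtype C) 2,
      ∃ m : ℤ, y = m • groupCohomology.map S.subtype (𝟙 (Rep.res S.subtype C)) 2 (H2π C φ))
    (w : groupCohomology (Rep.res S.subtype (augRep G)) 1)
    (hw : δ (splitSeqRes_shortExact S C φ) 1 2 rfl w = 0) : w = 0 := by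
  obtain ⟨n, rfl⟩ := exists_zsmul_augClass S h1 w
  have hδ : (δ (splitSeqRes_shortExact S C φ) 1 2 rfl (augClass S) :
      groupCohomology (Rep.res S.subtype C) 2) =
      groupCohomology.map S.subtype (𝟙 (Rep.res S.subtype C)) 2 (H2π C φ) :=
    delta_augClass_eq S C φ
  have hlin : (δ (splitSeqRes_shortExact S C φ) 1 2 rfl (n • augClass S) :
      groupCohomology (Rep.res S.subtype C) 2) =
      n • (δ (splitSeqRes_shortExact S C φ) 1 2 rfl (augClass S) :
        groupCohomology (Rep.res S.subtype C) 2) :=
    map_zsmul (δ (splitSeqRes_shortExact S C φ) 1 2 rfl).hom n (augClass S)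
  generalize groupCohomology.map S.subtype (𝟙 (Rep.res S.subtype C)) 2 (H2π C φ) = uS at hδ hgen
  have hn : n • uS = 0 :=
    (congrArg (fun z => n • z) hδ).symm.trans (hlin.symm.trans hw)
  have htop : AddSubgroup.zmultiples uS = ⊤ := by
    rw [eq_top_iff]
    intro y _
    obtain ⟨m, hm⟩ := hgen y
    exact AddSubgroup.mem_zmultiples_iff.2 ⟨m, hm.symm⟩
  have hord : addOrderOf uS = Nat.card S := by
    rw [← Nat.card_zmultiples, htop, AddSubgroup.card_top, hcard]
  have hdvd : (Nat.card S : ℤ) ∣ n := by
    rw [← hord]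
    exact (addOrderOf_dvd_iff_zsmul_eq_zero).2 hn
  obtain ⟨k, rfl⟩ := hdvd
  rw [mul_comm, mul_smul_comm_aux S k]
where
  mul_smul_comm_aux (S : Subgroup G) [Fintype S] (k : ℤ) :
      (k * (Nat.card S : ℤ)) • augClass S = 0 := by
    rw [mul_zsmul, Nat.card_eq_fintype_card]
    unfold augClass
    rw [card_zsmul_H1π, zsmul_zero]

/-- `H¹(S, D) = 0`. -/
lemma subsingleton_H1_splitRep
    (h1 : Limits.IsZero (groupCohomology (Rep.res S.subtype (Rep.leftRegular ℤ G)) 1))
    (hC1 : Subsingleton (groupCohomology (Rep.res S.subtype C) 1))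
    (hcard : Nat.card (groupCohomology (Rep.res S.subtype C) 2) = Nat.card S)
    (hgen : ∀ y : groupCohomology (Rep.res S.subtype C) 2,
      ∃ m : ℤ, y = m • groupCohomology.map S.subtype (𝟙 (Rep.res S.subtype C)) 2 (H2π C φ)) :
    Subsingleton (groupCohomology (Rep.res S.subtype (splitRep C φ)) 1) := by
  have hex2 := mapShortComplex₂_exact (splitSeqRes_shortExact S C φ) 1
  have hex3 := mapShortComplex₃_exact (splitSeqRes_shortExact S C φ) (i := 1) (j := 2) rfl
  rw [ShortComplex.moduleCat_exact_iff] at hex2
  refine ⟨fun a b => ?_⟩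
  have key : ∀ w : groupCohomology (Rep.res S.subtype (splitRep C φ)) 1, w = 0 := by
    intro w
    have hz := ShortComplex.moduleCat_zero_apply
      (mapShortComplex₃ (splitSeqRes_shortExact S C φ) (i := 1) (j := 2) rfl) w
    have hgw := delta_injective S C φ h1 hcard hgen _ hz
    obtain ⟨v, hv⟩ := hex2 w hgw
    have hX1 : Subsingleton (mapShortComplex₂ (splitSeqRes S C φ) 1).X₁ := hC1
    rw [← hv, Subsingleton.elim v 0]
    exact map_zero _
  rw [key a, key b]

omit [Fintype ↥S] in
/-- `H²(S, D) = 0`. -/
lemma subsingleton_H2_splitRep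
    (hA2 : Subsingleton (groupCohomology (Rep.res S.subtype (augRep G)) 2))
    (hgen : ∀ y : groupCohomology (Rep.res S.subtype C) 2,
      ∃ m : ℤ, y = m • groupCohomology.map S.subtype (𝟙 (Rep.res S.subtype C)) 2 (H2π C φ)) :
    Subsingleton (groupCohomology (Rep.res S.subtype (splitRep C φ)) 2) := by
  have hex2 := mapShortComplex₂_exact (splitSeqRes_shortExact S C φ) 2
  rw [ShortComplex.moduleCat_exact_iff] at hex2
  refine ⟨fun a b => ?_⟩
  have key : ∀ w : groupCohomology (Rep.res S.subtype (splitRep C φ)) 2, w = 0 := by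
    intro w
    have hX3 : Subsingleton (mapShortComplex₂ (splitSeqRes S C φ) 2).X₃ := hA2
    obtain ⟨v, hv⟩ := hex2 w (Subsingleton.elim _ _)
    obtain ⟨m, hm⟩ := hgen v
    have hδ : (δ (splitSeqRes_shortExact S C φ) 1 2 rfl (m • augClass S) :
        groupCohomology (Rep.res S.subtype C) 2) = v := by
      have hlin : (δ (splitSeqRes_shortExact S C φ) 1 2 rfl (m • augClass S) :
          groupCohomology (Rep.res S.subtype C) 2) =
          m • (δ (splitSeqRes_shortExact S C φ) 1 2 rfl (augClass S) :
            groupCohomology (Rep.res S.subtype C) 2) :=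
        map_zsmul (δ (splitSeqRes_shortExact S C φ) 1 2 rfl).hom m (augClass S)
      exact hlin.trans ((congrArg (fun z => m • z) (delta_augClass_eq S C φ)).trans hm.symm)
    have hz := ShortComplex.moduleCat_zero_apply
      (mapShortComplex₁ (splitSeqRes_shortExact S C φ) (i := 1) (j := 2) rfl)
      (m • augClass S)
    rw [← hv, ← hδ]
    exact hz
  rw [key a, key b]

end Vanishing

end Fermat.Agent.H56.Tate

namespace Fermat.Agent.H56.Tate

attribute [-instance] AddCommGroup.toIntModule

open Fermat.Agent.H24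

/-- **T-SPLIT** (row 483): the splitting module of a fundamental class. -/
theorem splitting (hreg : LeftRegularTrivialStatement) : SplittingStatement := by
  intro G _ _ C u hC
  obtain ⟨φ, rfl⟩ : ∃ φ : cocycles₂ C, H2π C φ = u := by
    induction u using H2_induction_on with
    | h x => exact ⟨x, rfl⟩
  refine ⟨augRep G, splitRep C φ, splitIncl C φ, splitProj C φ, augIncl G, augHom G,
    splitIncl_comp_splitProj C φ, augIncl_comp_augHom, splitSeq_shortExact C φ,
    augSeq_shortExact, ?_, ?_⟩
  · intro S _
    obtain ⟨hC1, hcard, hgen⟩ := hC S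
    have h1 : Limits.IsZero (groupCohomology (Rep.res S.subtype (Rep.leftRegular ℤ G)) 1) :=
      (isZero_groupCohomology_iff_tate _ 1).2 (hreg G 1 S)
    have hsub := subsingleton_H1_splitRep S C φ h1 hC1 hcard hgen
    exact (isZero_groupCohomology_iff_tate _ 1).1 (ModuleCat.isZero_of_subsingleton _)
  · intro S _
    obtain ⟨-, -, hgen⟩ := hC S
    have h2 : Limits.IsZero (groupCohomology (Rep.res S.subtype (Rep.leftRegular ℤ G)) 2) :=
      (isZero_groupCohomology_iff_tate _ 2).2 (hreg G 2 S)
    have hZ : Subsingleton (groupCohomology (Rep.res S.subtype (Rep.trivial ℤ G ℤ)) 1) := by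
      apply subsingleton_H1_of_isTrivial
      intro n a hn ha
      rw [nsmul_eq_mul] at ha
      rcases mul_eq_zero.1 ha with h | h
      · exact absurd (Nat.cast_eq_zero.1 h) hn.ne'
      · exact h
    have hA2 := subsingleton_H2_augRep_res S hZ h2
    have hsub := subsingleton_H2_splitRep S C φ hA2 hgen
    exact (isZero_groupCohomology_iff_tate _ 2).1 (ModuleCat.isZero_of_subsingleton _)

end Fermat.Agent.H56.Tate
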